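import Fermat.Agent.TwoAdic.Unramified.Split
import Fermat.Agent.ClassField.S14.Places
import Fermat.Prelude.Def_FLTPrelim_Ramification

/-!
# Unramified abelian 2-extensions of a totally complex field

The degree divides the class number: the norm classes have index at least the degree
(`Split.finrank_le_index_range_classNorm`), and that index is a power of two.
-/

set_option autoImplicit false

noncomputable section

open NumberField

namespace Fermat.Agent.TwoAdic.Unramified

/-- **Unramified abelian 2-extensions**: the degree divides the class number. -/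
theorem finrank_dvd_card_classGroup {K L : Type*} [Field K] [NumberField K] [Field L]
    [NumberField L] [Algebra K L] [IsGalois K L] [IsTotallyComplex K]
    (hab : ∀ a b : L ≃ₐ[K] L, a * b = b * a) (h2 : IsPGroup 2 (L ≃ₐ[K] L))
    (hunr : ∀ I : Ideal (𝓞 L), I ≠ ⊥ → I.IsPrime → I.inertia (L ≃ₐ[K] L) = ⊥) :
    Module.finrank K L ∣ Nat.card (ClassGroup (𝓞 K)) := by
  have hle := finrank_le_index_range_classNorm (K := K) (Module.finrank K L) L rfl hab h2 hunr
  obtain ⟨e, he⟩ := exists_index_range_classNorm_eq_two_pow (K := K) h2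
  obtain ⟨k, hk⟩ := IsPGroup.iff_card.1 h2
  rw [IsGalois.card_aut_eq_finrank] at hk
  rw [he, hk] at hle
  refine dvd_trans ?_ (Subgroup.index_dvd_card (ClassField.FirstIneq.classNorm K L).range)
  rw [he, hk]
  exact pow_dvd_pow 2 ((Nat.pow_le_pow_iff_right (by norm_num)).1 hle)

/-- The same for an everywhere unramified 2-power character of the absolute Galois group of a
totally complex subfield of `ℚ̄`. -/
theorem natCard_range_dvd_card_classGroup (K : IntermediateField ℚ (AlgebraicClosure ℚ))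
    [NumberField K] [IsTotallyComplex K] {M : Type*} [CommGroup M]
    (η : K.fixingSubgroup →* M)
    (hfin : ∃ L : IntermediateField ℚ (AlgebraicClosure ℚ), FiniteDimensional ℚ L ∧
      ∀ σ : K.fixingSubgroup, (σ : AlgebraicClosure ℚ ≃ₐ[ℚ] AlgebraicClosure ℚ) ∈
        L.fixingSubgroup → η σ = 1)
    (h2 : IsPGroup 2 η.range)
    (hunr : ∀ q : ℕ, q.Prime → ∀ P : ValuationSubring (AlgebraicClosure ℚ), P.LiesOverPrime q →
      ∀ σ : K.fixingSubgroup,
        (σ : AlgebraicClosure ℚ ≃ₐ[ℚ] AlgebraicClosure ℚ) ∈ P.inertiaSubgroupIn ℚ → η σ = 1) :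
    Nat.card η.range ∣ 2 ^ padicValNat 2 (Nat.card (ClassGroup (𝓞 K))) := by
  have : IsGalois ℚ (AlgebraicClosure ℚ) :=
    have : IsAlgClosure ℚ (AlgebraicClosure ℚ) :=
      ⟨inferInstance, AlgebraicClosure.isAlgebraic ℚ⟩
    IsAlgClosure.isGalois ℚ _
  let e := IntermediateField.fixingSubgroupEquiv K
  let η' : (AlgebraicClosure ℚ ≃ₐ[K] AlgebraicClosure ℚ) →* M := η.comp e.symm.toMonoidHom
  have hη' : ∀ g : K.fixingSubgroup, η' (e g) = η g := fun g => by
    simp [η', MulEquiv.symm_apply_apply]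
  -- the kernel is open
  obtain ⟨L, hL, hLη⟩ := hfin
  have : FiniteDimensional ℚ K := inferInstance
  let L₁ : IntermediateField ℚ (AlgebraicClosure ℚ) := L ⊔ K
  have : FiniteDimensional ℚ L₁ := IntermediateField.finiteDimensional_sup L K
  let L₂ : IntermediateField K (AlgebraicClosure ℚ) :=
    IntermediateField.extendScalars (le_sup_right : K ≤ L₁)
  have : FiniteDimensional K L₂ := by
    have : FiniteDimensional ℚ L₂ := (inferInstance : FiniteDimensional ℚ L₁)
    exact Module.Finite.of_restrictScalars_finite ℚ K L₂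
  have hopen : IsOpen (η'.ker : Set (AlgebraicClosure ℚ ≃ₐ[K] AlgebraicClosure ℚ)) := by
    refine Subgroup.isOpen_mono (H₁ := L₂.fixingSubgroup) (fun g hg => ?_)
      (IntermediateField.fixingSubgroup_isOpen L₂)
    rw [MonoidHom.mem_ker, ← e.apply_symm_apply g, hη']
    refine hLη _ ((IntermediateField.mem_fixingSubgroup_iff _ _).2 fun x hx => ?_)
    exact (IntermediateField.mem_fixingSubgroup_iff _ _).1 hg x
      ((le_sup_left : L ≤ L₁) hx)
  let C : ClosedSubgroup (AlgebraicClosure ℚ ≃ₐ[K] AlgebraicClosure ℚ) :=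
    ⟨η'.ker, Subgroup.isClosed_of_isOpen _ hopen⟩
  have hCn : C.toSubgroup.Normal := MonoidHom.normal_ker η'
  have : IsGalois K (AlgebraicClosure ℚ) := IsGalois.tower_top_of_isGalois ℚ K _
  let E : IntermediateField K (AlgebraicClosure ℚ) := IntermediateField.fixedField C.1
  have hfix : E.fixingSubgroup = η'.ker := InfiniteGalois.fixingSubgroup_fixedField C
  have : FiniteDimensional K E := (InfiniteGalois.isOpen_iff_finite E).1 (by
    show IsOpen (E.fixingSubgroup : Set (AlgebraicClosure ℚ ≃ₐ[K] AlgebraicClosure ℚ))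
    rw [hfix]; exact hopen)
  have : IsGalois K E := (InfiniteGalois.normal_iff_isGalois E).1 (by rw [hfix]; exact hCn)
  have : NumberField E := NumberField.of_module_finite K E
  let q := AlgEquiv.restrictNormalHom (F := K) (K₁ := AlgebraicClosure ℚ) E
  have hq : Function.Surjective q := AlgEquiv.restrictNormalHom_surjective (AlgebraicClosure ℚ)
  have hqker : q.ker = η'.ker := by rw [IntermediateField.restrictNormalHom_ker, hfix]
  let iso : η'.range ≃* (E ≃ₐ[K] E) :=
    (QuotientGroup.quotientKerEquivRange η').symm.trans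
      (QuotientGroup.liftEquiv _ hq hqker.symm)
  have hrange : η'.range = η.range := by
    refine le_antisymm ?_ ?_
    · rintro _ ⟨g, rfl⟩; exact ⟨_, rfl⟩
    · rintro _ ⟨g, rfl⟩; exact ⟨_, hη' g⟩
  have hab : ∀ a b : E ≃ₐ[K] E, a * b = b * a := fun a b => iso.symm.injective (by
    rw [map_mul, map_mul, mul_comm])
  have h2E : IsPGroup 2 (E ≃ₐ[K] E) :=
    h2.of_equiv ((MulEquiv.subgroupCongr hrange).symm.trans iso)
  have hunrE : ∀ I : Ideal (𝓞 E), I ≠ ⊥ → I.IsPrime → I.inertia (E ≃ₐ[K] E) = ⊥ := by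
    intro I hI hIp
    rw [eq_bot_iff]
    intro τ hτ
    let E₀ : IntermediateField ℚ (AlgebraicClosure ℚ) := E.restrictScalars ℚ
    have : FiniteDimensional ℚ E₀ := FiniteDimensional.trans ℚ K E
    have : I.IsMaximal := hIp.isMaximal hI
    obtain ⟨ℓ, hℓ, hℓI⟩ : ∃ ℓ : ℕ, ℓ.Prime ∧ (ℓ : 𝓞 E) ∈ I := by
      have h0 : I.under ℤ ≠ ⊥ := Ideal.under_ne_bot ℤ hI
      obtain ⟨m, hm⟩ := (IsPrincipalIdealRing.principal (I.under ℤ))
      rw [← Ideal.span] at hm
      have hm' : Prime m := by
        rw [← Ideal.span_singleton_prime (fun h => h0 (by rw [hm, h]; simp)), ← hm]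
        infer_instance
      refine ⟨m.natAbs, Int.prime_iff_natAbs_prime.mp hm', ?_⟩
      have h3 : (m.natAbs : ℤ) ∈ I.under ℤ := by
        rw [hm, Ideal.mem_span_singleton]
        exact Int.dvd_natAbs.mpr dvd_rfl
      rw [Ideal.mem_comap, map_natCast] at h3
      exact h3
    have hmax₀ : (show Ideal (𝓞 E₀) from I).IsMaximal := ‹I.IsMaximal›
    obtain ⟨A, hA, -, -, hlift⟩ := @ClassField.S14.exists_place_over E₀ _ (show Ideal (𝓞 E₀) from I)
      hmax₀ ℓ hℓ hℓI
    obtain ⟨σ, hσ, hστ⟩ := hlift (τ.restrictScalars ℚ) fun x => hτ x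
    have hσK : σ ∈ K.fixingSubgroup := (IntermediateField.mem_fixingSubgroup_iff _ _).2 fun x hx =>
      (hστ ⟨x, E.algebraMap_mem ⟨x, hx⟩⟩).trans (congrArg Subtype.val (τ.commutes ⟨x, hx⟩))
    have hker : e ⟨σ, hσK⟩ ∈ η'.ker := by
      rw [MonoidHom.mem_ker, hη']
      exact hunr ℓ hℓ A hA ⟨σ, hσK⟩ hσ
    rw [← hfix, IntermediateField.mem_fixingSubgroup_iff] at hker
    refine Subgroup.mem_bot.2 (AlgEquiv.ext fun x => Subtype.ext ?_)
    exact (hστ x).symm.trans (hker x x.2)
  have hdvd := finrank_dvd_card_classGroup hab h2E hunrE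
  have hcard : Nat.card η.range = Module.finrank K E := by
    rw [← IsGalois.card_aut_eq_finrank K E, ← hrange]
    exact Nat.card_congr iso.toEquiv
  have : Finite η.range := Finite.of_equiv _
    (((MulEquiv.subgroupCongr hrange).symm.trans iso).symm.toEquiv)
  obtain ⟨k, hk⟩ := IsPGroup.iff_card.1 h2
  have : Fact (Nat.Prime 2) := ⟨Nat.prime_two⟩
  rw [hk]
  rw [← hcard, hk] at hdvd
  exact pow_dvd_pow 2 ((padicValNat_dvd_iff_le Nat.card_pos.ne').1 hdvd)

end Fermat.Agent.TwoAdic.Unramified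

end
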