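import Fermat.Agent.ClassField.FirstInequality
import Fermat.Agent.ClassField.GW.QHomRank
import Fermat.Agent.ClassField.GW.Values.Basic
import Fermat.Agent.ClassField.UnitsAction

/-!
# Unramified cyclic extensions of totally complex fields

The norm classes have index at least the degree: ambiguous classes and the unit Herbrand quotient.
The units together with a trivial `ℤ` are isogenous to a free `ℤ[G]`-module, as the invariants of
every subgroup have the same rank.
Owner: helper41.
-/

set_option autoImplicit false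

noncomputable section

open scoped NumberField Fermat.Agent.ClassField
open NumberField Module Finset

namespace Fermat.Agent.TwoAdic.Unramified

open ClassField ClassField.S55 ClassField.GW

namespace Cyclic

section Herbrand

variable {G : Type*} [Group G] (σ : G) (n : ℕ)
variable (M : Type*) [AddCommGroup M] [DistribMulAction G M]

/-- `σ - 1`. -/
def sigmaSub : M →+ M := DistribSMul.toAddMonoidHom M σ - AddMonoidHom.id M

/-- `1 + σ + ⋯ + σ ^ (n - 1)`. -/
def sigmaNorm : M →+ M := ∑ i ∈ range n, DistribSMul.toAddMonoidHom M (σ ^ i)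

/-- `#Ĥ⁰`. -/
def herb0 : ℕ := (sigmaNorm σ n M).range.relIndex (sigmaSub σ M).ker

/-- `#Ĥ⁻¹`. -/
def herb1 : ℕ := (sigmaSub σ M).range.relIndex (sigmaNorm σ n M).ker

variable {M}

theorem sigmaSub_apply (x : M) : sigmaSub σ M x = σ • x - x := rfl

theorem sigmaNorm_apply (x : M) : sigmaNorm σ n M x = ∑ i ∈ range n, σ ^ i • x := by
  simp [sigmaNorm, AddMonoidHom.finsetSum_apply]

theorem sigmaSub_sigmaNorm (hn : σ ^ n = 1) (x : M) :
    sigmaSub σ M (sigmaNorm σ n M x) = 0 := by
  rw [sigmaSub_apply, sigmaNorm_apply, Finset.smul_sum, ← Finset.sum_sub_distrib]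
  simp only [← mul_smul, ← pow_succ']
  rw [Finset.sum_range_sub (fun i => σ ^ i • x), hn, pow_zero, sub_self]

theorem sigmaNorm_sigmaSub (hn : σ ^ n = 1) (x : M) :
    sigmaNorm σ n M (sigmaSub σ M x) = 0 := by
  rw [sigmaSub_apply, sigmaNorm_apply]
  simp only [smul_sub, ← mul_smul, ← pow_succ, Finset.sum_sub_distrib]
  rw [← Finset.sum_sub_distrib, Finset.sum_range_sub (fun i => σ ^ i • x), hn, pow_zero, sub_self]

theorem sigmaNorm_of_fixed {x : M} (hx : σ • x = x) : sigmaNorm σ n M x = n • x := by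
  have : ∀ i : ℕ, σ ^ i • x = x := fun i => by
    induction i with
    | zero => rw [pow_zero, one_smul]
    | succ i ih => rw [pow_succ, mul_smul, hx, ih]
  rw [sigmaNorm_apply, Finset.sum_congr rfl fun i _ => this i, Finset.sum_const, card_range]

theorem herb0_ne_zero [Module.Finite ℤ M] (hn0 : n ≠ 0) : herb0 σ n M ≠ 0 :=
  HerbrandRank.relIndex_range_ne_zero_of_smul hn0 fun x hx =>
    ⟨x, sigmaNorm_of_fixed σ n (sub_eq_zero.1 hx)⟩

/-- The Herbrand quotient is invariant under isogenies. -/
theorem herb_isogeny {Y : Type*} [AddCommGroup Y] [DistribMulAction G Y] (hn : σ ^ n = 1)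
    (j : M →+[G] Y) (hj : Function.Injective j) (hi : (j : M →+ Y).range.index ≠ 0) :
    herb0 σ n Y * herb1 σ n M = herb0 σ n M * herb1 σ n Y := by
  set J : M →+ Y := (j : M →+ Y)
  have hJ : Function.Injective J := hj
  have hf : (sigmaSub σ Y).comp J = J.comp (sigmaSub σ M) := AddMonoidHom.ext fun x => by
    show σ • j x - j x = j (σ • x - x)
    rw [map_sub, map_smul]
  have hg : (sigmaNorm σ n Y).comp J = J.comp (sigmaNorm σ n M) := AddMonoidHom.ext fun x => by
    show sigmaNorm σ n Y (j x) = j (sigmaNorm σ n M x)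
    rw [sigmaNorm_apply, sigmaNorm_apply, map_sum]
    simp only [map_smul]
  have hmap : ∀ (F : Y →+ Y) (F' : M →+ M), F.comp J = J.comp F' →
      J.range.map F = F'.range.map J := fun F F' h => by
    rw [AddMonoidHom.map_range, h, ← AddMonoidHom.map_range]
  have hinf : ∀ (F : Y →+ Y) (F' : M →+ M), F.comp J = J.comp F' →
      J.range ⊓ F.ker = F'.ker.map J := fun F F' h => by
    ext y
    constructor
    · rintro ⟨⟨x, rfl⟩, hy⟩
      exact ⟨x, hJ (((DFunLike.congr_fun h x).symm.trans hy).trans (map_zero J).symm), rfl⟩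
    · rintro ⟨x, hx, rfl⟩
      exact ⟨⟨x, rfl⟩, (DFunLike.congr_fun h x).trans ((congrArg J hx).trans (map_zero J))⟩
  have hstab : ∀ (F : Y →+ Y) (F' : M →+ M), F.comp J = J.comp F' → J.range.map F ≤ J.range :=
    fun F F' h => by
      rw [hmap F F' h]
      rintro _ ⟨x, -, rfl⟩
      exact ⟨x, rfl⟩
  have key := HerbrandRank.cross_mul (sigmaSub σ Y) (sigmaNorm σ n Y) (sigmaSub_sigmaNorm σ n hn)
    (sigmaNorm_sigmaSub σ n hn) J.range (hstab _ _ hf) (hstab _ _ hg) hi
  rw [hmap _ _ hf, hmap _ _ hg, hinf _ _ hf, hinf _ _ hg,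
    AddSubgroup.relIndex_map_map_of_injective _ _ hJ,
    AddSubgroup.relIndex_map_map_of_injective _ _ hJ] at key
  exact key

end Herbrand

section Free

variable {G : Type*} [Group G] [Fintype G] (σ : G) (hσ : ∀ g : G, g ∈ Subgroup.zpowers σ)
include hσ

theorem sum_range_pow {X : Type*} [AddCommMonoid X] (f : G → X) :
    ∑ i ∈ range (orderOf σ), f (σ ^ i) = ∑ g : G, f g := by
  refine Finset.sum_nbij (σ ^ ·) (fun _ _ => Finset.mem_univ _) ?_ ?_ fun _ _ => rfl
  · rw [Finset.coe_range]
    exact pow_injOn_Iio_orderOf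
  · intro g _
    obtain ⟨i, rfl⟩ := mem_powers_iff_mem_zpowers.2 (hσ g)
    exact ⟨i % orderOf σ, Finset.mem_range.2 (Nat.mod_lt _ (orderOf_pos σ)), pow_mod_orderOf σ i⟩

variable (B : Type*) [AddCommGroup B]

theorem herb0_ind : herb0 σ (orderOf σ) (Ind G B) = 1 := by
  classical
  rw [herb0, AddSubgroup.relIndex_eq_one]
  intro x hx
  have hx' : σ • x = x := sub_eq_zero.1 hx
  obtain ⟨y, hy⟩ := Ind.exists_normSum_of_fixed (f := x) fun g => by
    have : Subgroup.zpowers σ ≤ MulAction.stabilizer G x := Subgroup.zpowers_le.2 hx'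
    exact this (hσ g)
  exact ⟨y, by rw [sigmaNorm_apply, sum_range_pow σ hσ fun g => g • y]; exact hy⟩

theorem herb1_ind : herb1 σ (orderOf σ) (Ind G B) = 1 := by
  classical
  rw [herb1, AddSubgroup.relIndex_eq_one]
  intro v hv
  let S : ℕ → B := fun i => ∑ k ∈ range i, v.val (σ ^ (k + 1))
  have hSn : S (orderOf σ) = 0 := by
    show ∑ k ∈ range (orderOf σ), v.val (σ ^ (k + 1)) = 0
    simp only [pow_succ']
    rw [sum_range_pow σ hσ fun g => v.val (σ * g)]
    have h1 : (∑ g : G, g • v).val 1 = 0 := by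
      rw [← sum_range_pow σ hσ fun g => g • v, ← sigmaNorm_apply, show sigmaNorm σ _ _ v = 0 from hv]
      rfl
    rw [show (∑ g : G, g • v).val 1 = ∑ g : G, (g • v).val 1 from
      map_sum ({ toFun := fun f => f.val 1, map_zero' := rfl, map_add' := fun _ _ => rfl } :
        Ind G B →+ B) _ _] at h1
    rw [← h1]
    refine Fintype.sum_equiv ((Equiv.mulLeft σ).trans (Equiv.inv G)) _ _ fun g => ?_
    simp [Ind.smul_apply]
  have hper : Function.Periodic S (orderOf σ) := fun i => by
    induction i with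
    | zero => rw [zero_add, hSn]; rfl
    | succ i ih =>
      show ∑ k ∈ range (i + 1 + orderOf σ), _ = ∑ k ∈ range (i + 1), _
      rw [Nat.add_right_comm, Finset.sum_range_succ, Finset.sum_range_succ]
      refine congrArg₂ (· + ·) ih (congrArg v.val ?_)
      rw [Nat.add_right_comm, pow_add, pow_orderOf_eq_one, mul_one]
  choose idx hidx using fun g => mem_powers_iff_mem_zpowers.2 (hσ g)
  have hwd : ∀ (g : G) (i : ℕ), σ ^ i = g → S (idx g) = S i := fun g i hi => by
    rw [← hper.map_mod_nat (idx g), ← hper.map_mod_nat i]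
    exact congrArg S (pow_eq_pow_iff_modEq.1 ((hidx g).trans hi.symm))
  refine ⟨⟨fun g => -S (idx g)⟩, Ind.ext (funext fun g => ?_)⟩
  rw [sigmaSub_apply, Ind.sub_apply, Ind.smul_apply]
  show -S (idx (σ⁻¹ * g)) - -S (idx g) = v.val g
  set i := idx (σ⁻¹ * g) with hi
  have hsucc : σ ^ (i + 1) = g := by
    rw [pow_succ', hi, show σ ^ idx (σ⁻¹ * g) = σ⁻¹ * g from hidx _, mul_inv_cancel_left]
  rw [hwd g (i + 1) hsucc, ← hsucc]
  show -S i - -(∑ k ∈ range (i + 1), v.val (σ ^ (k + 1))) = _
  rw [Finset.sum_range_succ]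
  show -S i - -(S i + v.val (σ ^ (i + 1))) = _
  abel

end Free

section Prod

variable {G : Type*} [Group G] (σ : G) (n : ℕ) [NeZero n]
variable {U : Type*} [AddCommGroup U] [DistribMulAction G U]

omit [NeZero n] in
theorem herb0_prod : herb0 σ n (U × TrivZ) = herb0 σ n U * n := by
  set R := (sigmaNorm σ n U).range.addSubgroupOf (sigmaSub σ U).ker
  let φ : (sigmaSub σ (U × TrivZ)).ker →+ ((sigmaSub σ U).ker ⧸ R) × ZMod n :=
    AddMonoidHom.mk' (fun x => (QuotientAddGroup.mk ⟨x.1.1, congrArg Prod.fst x.2⟩,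
      ((x.1.2.val : ℤ) : ZMod n))) fun a b =>
        Prod.ext rfl (Int.cast_add (a.1.2.val) (b.1.2.val))
  have hsurj : Function.Surjective φ := fun ⟨q, c⟩ => by
    obtain ⟨u, rfl⟩ := QuotientAddGroup.mk_surjective q
    obtain ⟨c, rfl⟩ := ZMod.intCast_surjective c
    exact ⟨⟨(u.1, ⟨c⟩), Prod.ext u.2 (TrivZ.ext (sub_self c))⟩, rfl⟩
  have hker : φ.ker = (sigmaNorm σ n (U × TrivZ)).range.addSubgroupOf _ := by
    ext x
    constructor
    · intro hx
      obtain ⟨u, hu⟩ := AddSubgroup.mem_addSubgroupOf.1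
        ((QuotientAddGroup.eq_zero_iff _).1 (congrArg Prod.fst hx))
      obtain ⟨d, hd⟩ := (ZMod.intCast_zmod_eq_zero_iff_dvd _ n).1 (congrArg Prod.snd hx)
      refine AddSubgroup.mem_addSubgroupOf.2 ⟨(u, ⟨d⟩), Prod.ext ?_ ?_⟩
      · rw [sigmaNorm_apply, Prod.fst_sum]
        exact (sigmaNorm_apply σ n u).symm.trans hu
      · rw [sigmaNorm_apply, Prod.snd_sum]
        show ∑ _i ∈ range n, (⟨d⟩ : TrivZ) = _
        rw [Finset.sum_const, card_range]
        refine TrivZ.valEquiv.injective ?_
        rw [map_nsmul, nsmul_eq_mul]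
        exact hd.symm
    · intro hx
      obtain ⟨w, hw⟩ := AddSubgroup.mem_addSubgroupOf.1 hx
      refine Prod.ext ((QuotientAddGroup.eq_zero_iff _).2 (AddSubgroup.mem_addSubgroupOf.2
        ⟨w.1, ?_⟩)) ?_
      · show sigmaNorm σ n U w.1 = x.1.1
        refine Eq.trans ?_ (congrArg Prod.fst hw)
        rw [sigmaNorm_apply, sigmaNorm_apply, Prod.fst_sum]
        rfl
      · show ((x.1.2.val : ℤ) : ZMod n) = 0
        rw [← hw, sigmaNorm_apply, Prod.snd_sum]
        show (((∑ _i ∈ range n, w.2).val : ℤ) : ZMod n) = 0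
        rw [Finset.sum_const, card_range, show (n • w.2).val = n • w.2.val from
          map_nsmul TrivZ.valEquiv n w.2, nsmul_eq_mul, Int.cast_mul, Int.cast_natCast,
          ZMod.natCast_self, zero_mul]
  rw [herb0, herb0, AddSubgroup.relIndex, ← hker, AddSubgroup.index_ker,
    AddMonoidHom.range_eq_top.2 hsurj, AddSubgroup.card_top, Nat.card_prod, Nat.card_zmod]
  rw [AddSubgroup.relIndex, AddSubgroup.index_eq_card]

theorem herb1_prod : herb1 σ n (U × TrivZ) = herb1 σ n U := by
  have h1 : (sigmaSub σ (U × TrivZ)).range =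
      (sigmaSub σ U).range.map (AddMonoidHom.inl U TrivZ) := by
    ext x
    constructor
    · rintro ⟨w, rfl⟩
      exact ⟨_, ⟨w.1, rfl⟩, Prod.ext rfl (TrivZ.ext (sub_self w.2.val).symm)⟩
    · rintro ⟨_, ⟨u, rfl⟩, rfl⟩
      exact ⟨(u, 0), Prod.ext rfl (TrivZ.ext (sub_self 0))⟩
  have h2 : (sigmaNorm σ n (U × TrivZ)).ker =
      (sigmaNorm σ n U).ker.map (AddMonoidHom.inl U TrivZ) := by
    ext x
    constructor
    · intro hx
      have hx' : ∑ i ∈ range n, σ ^ i • x = 0 := (sigmaNorm_apply σ n x).symm.trans hx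
      refine ⟨x.1, ?_, Prod.ext rfl ?_⟩
      · show sigmaNorm σ n U x.1 = 0
        rw [sigmaNorm_apply]
        exact (Prod.fst_sum (s := range n) (f := fun i => σ ^ i • x)).symm.trans
          (congrArg Prod.fst hx')
      · have h : n • x.2 = 0 := by
          have := congrArg Prod.snd hx'
          rw [Prod.snd_sum, show ∑ i ∈ range n, (σ ^ i • x).2 = ∑ _i ∈ range n, x.2 from rfl,
            Finset.sum_const, card_range] at this
          exact this
        show (0 : TrivZ) = x.2
        refine TrivZ.valEquiv.injective ?_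
        have h' := congrArg TrivZ.valEquiv h
        rw [map_nsmul, map_zero, smul_eq_zero] at h'
        rw [map_zero, h'.resolve_left (NeZero.ne n)]
    · rintro ⟨u, hu, rfl⟩
      show sigmaNorm σ n (U × TrivZ) (u, 0) = 0
      rw [sigmaNorm_apply]
      refine Prod.ext ?_ ?_
      · rw [Prod.fst_sum]
        exact (sigmaNorm_apply σ n u).symm.trans hu
      · rw [Prod.snd_sum]
        exact Finset.sum_eq_zero fun _ _ => rfl
  have hinl : Function.Injective (AddMonoidHom.inl U TrivZ) := fun a b h => congrArg Prod.fst h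
  rw [herb1, herb1, h1, h2, AddSubgroup.relIndex_map_map_of_injective _ _ hinl]

end Prod

section Lattice

variable {G : Type*} [Group G] [Fintype G] {A : Type*} [AddCommGroup A] [DistribMulAction G A]
  [Module.Finite ℤ A]

/-- A module whose invariants have the ranks of those of a free module has trivial Herbrand
quotient. -/
theorem herb1_eq_herb0 (σ : G) (hσ : ∀ g : G, g ∈ Subgroup.zpowers σ) (r : ℕ)
    (h : ∀ D : Subgroup G, finrank ℤ (fixedSub D A) = r * D.index) :
    herb1 σ (orderOf σ) A = herb0 σ (orderOf σ) A := by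
  classical
  set n := orderOf σ
  have hn : σ ^ n = 1 := pow_orderOf_eq_one σ
  have : Finite (Submodule.torsion ℤ A) :=
    Module.finite_of_fg_torsion _ Submodule.torsion_isTorsion
  set m := Nat.card (Submodule.torsion ℤ A)
  have hm : m ≠ 0 := Nat.card_pos.ne'
  let T : AddSubgroup A := (nsmulAddMonoidHom (α := A) m).range
  have hTmem : ∀ x : A, m • x ∈ T := fun x => ⟨x, rfl⟩
  let _ : DistribMulAction G T :=
    { smul := fun g x => ⟨g • (x : A), by
        obtain ⟨y, hy⟩ := x.2
        exact ⟨g • y, (smul_comm g m y).symm.trans (congrArg (g • ·) hy)⟩⟩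
      one_smul := fun x => Subtype.ext (one_smul G (x : A))
      mul_smul := fun g h x => Subtype.ext (mul_smul g h (x : A))
      smul_zero := fun g => Subtype.ext (smul_zero g)
      smul_add := fun g x y => Subtype.ext (smul_add g (x : A) (y : A)) }
  have : Module.Finite ℤ T :=
    Module.Finite.of_injective T.subtype.toIntLinearMap Subtype.val_injective
  have hfree : ∀ (k : ℤ) (x : T), k ≠ 0 → k • x = 0 → x = 0 := fun k x hk hx => by
    obtain ⟨y, hy⟩ := x.2
    refine Subtype.ext (hy.symm.trans ?_)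
    have hy' : y ∈ Submodule.torsion ℤ A := ⟨⟨k * m, mem_nonZeroDivisors_of_ne_zero
      (mul_ne_zero hk (Int.natCast_ne_zero.2 hm))⟩, by
        show (k * m) • y = 0
        rw [mul_smul, natCast_zsmul, show m • y = (x : A) from hy]
        exact congrArg Subtype.val hx⟩
    exact congrArg Subtype.val (card_nsmul_eq_zero' (x := (⟨y, hy'⟩ : Submodule.torsion ℤ A)))
  have : IsTorsionFree ℤ T := Module.IsTorsionFree.mk fun k hk a b hab => sub_eq_zero.1
    (hfree k (a - b) hk.ne_zero (by rw [smul_sub]; exact sub_eq_zero.2 hab))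
  let ι : T →+[G] A :=
    { toFun := fun x => x, map_smul' := fun _ _ => rfl, map_zero' := rfl,
      map_add' := fun _ _ => rfl }
  have hι : (ι : T →+ A).range.index ≠ 0 := by
    rw [show (ι : T →+ A).range = T from
      AddSubgroup.ext fun y => ⟨fun ⟨z, hz⟩ => hz ▸ z.2, fun h => ⟨⟨y, h⟩, rfl⟩⟩,
      ← AddSubgroup.relIndex_top_right]
    exact HerbrandRank.relIndex_range_ne_zero_of_smul hm fun x _ => hTmem x
  let eY : (G → Fin r → ℤ) ≃ₗ[ℤ] Ind G (Fin r → ℤ) := AddEquiv.toIntLinearEquiv
    { toFun := fun v => ⟨v⟩, invFun := Ind.val, left_inv := fun _ => rfl, right_inv := fun _ => rfl,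
      map_add' := fun _ _ => rfl }
  have : Module.Finite ℤ (Ind G (Fin r → ℤ)) := Module.Finite.equiv eY
  have : Module.Free ℤ (Ind G (Fin r → ℤ)) := Module.Free.of_equiv eY
  have hT : ∀ D : Subgroup G, finrank ℤ (fixedSub D T) = r * D.index := fun D => by
    rw [← h D]
    let f : fixedSub D T →ₗ[ℤ] A := (T.subtype.comp (fixedSub D T).subtype).toIntLinearMap
    have hf : Function.Injective f := fun a b e => Subtype.ext (Subtype.ext e)
    rw [← LinearMap.finrank_range_of_inj hf]
    refine HerbrandRank.finrank_eq_of_smul_mem' (N' := (fixedSub D A).toIntSubmodule) ?_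
      (Int.natCast_ne_zero.2 hm) fun x hx => ?_
    · rintro _ ⟨y, rfl⟩ d
      exact congrArg Subtype.val (y.2 d)
    · refine ⟨⟨⟨(m : ℤ) • x, by rw [natCast_zsmul]; exact hTmem x⟩, fun d => Subtype.ext ?_⟩, rfl⟩
      show d • ((m : ℤ) • x) = (m : ℤ) • x
      rw [smul_comm, hx d]
  have hY : ∀ D : Subgroup G, finrank ℤ (fixedSub D (Ind G (Fin r → ℤ))) = r * D.index := fun D => by
    let e : fixedSub D (Ind G (Fin r → ℤ)) ≃+ (Quotient (QuotientGroup.rightRel D) → Fin r → ℤ) :=
      { toFun := fun f q => f.1.val q.out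
        invFun := fun v => ⟨⟨fun g => v (Quotient.mk _ g)⟩, fun d => Ind.ext (funext fun g => by
          show v (Quotient.mk _ ((d : G)⁻¹ * g)) = v (Quotient.mk _ g)
          exact congrArg v (Quotient.sound (QuotientGroup.rightRel_apply.2 (by simp))))⟩
        left_inv := fun f => Subtype.ext (Ind.ext (funext fun g => by
          show f.1.val (Quotient.mk (QuotientGroup.rightRel D) g).out = f.1.val g
          have hm := QuotientGroup.rightRel_apply.1
            (Quotient.mk_out (s := QuotientGroup.rightRel D) g)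
          have e := congrArg (fun w : Ind G (Fin r → ℤ) => w.val g) (f.2 ⟨_, hm⟩)
          simpa [Subgroup.smul_def, Ind.smul_apply, mul_assoc] using e))
        right_inv := fun v => funext fun q => congrArg v (Quotient.out_eq q)
        map_add' := fun _ _ => rfl }
    have : Fintype (Quotient (QuotientGroup.rightRel D)) := Fintype.ofFinite _
    rw [e.toIntLinearEquiv.finrank_eq, Module.finrank_pi_fintype]
    simp only [Module.finrank_fintype_fun_eq_card, Fintype.card_fin, Finset.sum_const,
      Finset.card_univ, smul_eq_mul]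
    rw [← Nat.card_eq_fintype_card, Nat.card_congr (QuotientGroup.quotientRightRelEquivQuotientLeftRel D)]
    exact mul_comm _ _
  obtain ⟨j, hj, hji⟩ := exists_isogeny_of_trace_eq (G := G) (L₁ := T) (L₂ := Ind G (Fin r → ℤ))
    (trace_eq_of_finrank_fixed fun D _ => by rw [hT, hY])
  have h1 := herb_isogeny σ n hn j hj hji
  rw [herb0_ind σ hσ, herb1_ind σ hσ, one_mul, mul_one] at h1
  have h2 := herb_isogeny σ n hn ι Subtype.val_injective hι
  rw [h1, mul_comm (herb0 σ n T)] at h2
  exact (Nat.eq_of_mul_eq_mul_right (Nat.pos_of_ne_zero (herb0_ne_zero σ n (orderOf_pos σ).ne')) h2).symm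

end Lattice

section Units

variable {K L : Type*} [Field K] [NumberField K] [Field L] [NumberField L] [Algebra K L]
  [IsGalois K L] [IsTotallyComplex K]

/-- The rank of the fixed units. -/
theorem finrank_fixed_units (D : Subgroup (L ≃ₐ[K] L)) :
    finrank ℤ (fixedSub D (Additive (𝓞 L)ˣ × TrivZ)) = InfinitePlace.nrComplexPlaces K * D.index := by
  classical
  let F := IntermediateField.fixedField D
  have : IsTotallyComplex F := isTotallyComplex_of_algebra K F
  let u : Additive (𝓞 F)ˣ →ₗ[ℤ] Additive (𝓞 L)ˣ :=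
    (MonoidHom.toAdditive (Units.map (algebraMap (𝓞 F) (𝓞 L) : 𝓞 F →* 𝓞 L))).toIntLinearMap
  have hu : Function.Injective u := fun x y h => Additive.toMul.injective <| Units.ext <|
    FaithfulSMul.algebraMap_injective (𝓞 F) (𝓞 L)
      (congrArg (fun z : Additive (𝓞 L)ˣ => ((Additive.toMul z : (𝓞 L)ˣ) : 𝓞 L)) h)
  let f := LinearMap.prodMap u (LinearMap.id : TrivZ →ₗ[ℤ] TrivZ)
  have hf : Function.Injective f := fun a b h =>
    Prod.ext (hu (congrArg Prod.fst h)) (congrArg Prod.snd h :)
  have hr : LinearMap.range f = (fixedSub D (Additive (𝓞 L)ˣ × TrivZ)).toIntSubmodule := by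
    ext x
    constructor
    · rintro ⟨y, rfl⟩ d
      refine Prod.ext (Additive.toMul.injective (Units.ext (RingOfIntegers.coe_injective ?_))) rfl
      exact IntermediateField.mem_fixedField_iff D _ |>.1
        (((Additive.toMul y.1 : (𝓞 F)ˣ) : 𝓞 F) : F).2 d d.2
    · intro hx
      set w : (𝓞 L)ˣ := Additive.toMul x.1
      have hfix : ∀ d ∈ D, (d : L ≃ₐ[K] L) • (w : 𝓞 L) = w := fun d hd =>
        congrArg (fun z => ((Additive.toMul z : (𝓞 L)ˣ) : 𝓞 L)) (congrArg Prod.fst (hx ⟨d, hd⟩))
      have hfix' : ∀ d ∈ D, (d : L ≃ₐ[K] L) • ((w⁻¹ : (𝓞 L)ˣ) : 𝓞 L) = (w⁻¹ : (𝓞 L)ˣ) := by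
        intro d hd
        apply w.isUnit.mul_left_cancel
        conv_lhs => rw [← hfix d hd, ← smul_mul', Units.mul_inv, smul_one]
        exact (Units.mul_inv _).symm
      have hmk : ∀ z : 𝓞 L, (∀ d ∈ D, (d : L ≃ₐ[K] L) • z = z) →
          ∃ a : 𝓞 F, algebraMap (𝓞 F) (𝓞 L) a = z := fun z hz =>
        ⟨⟨⟨(z : L), (IntermediateField.mem_fixedField_iff D _).2 fun d hd =>
          congrArg (fun y : 𝓞 L => (y : L)) (hz d hd)⟩,
          (isIntegral_algebraMap_iff (algebraMap F L).injective).1 z.2⟩, rfl⟩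
      obtain ⟨a, ha⟩ := hmk _ hfix
      obtain ⟨b, hb⟩ := hmk _ hfix'
      have hab : a * b = 1 := FaithfulSMul.algebraMap_injective (𝓞 F) (𝓞 L) (by
        rw [map_mul, ha, hb, Units.mul_inv, map_one])
      exact ⟨(Additive.ofMul ⟨a, b, hab, by rwa [mul_comm]⟩, x.2),
        Prod.ext (Additive.toMul.injective (Units.ext ha)) rfl⟩
  have hT : finrank ℤ TrivZ = 1 := by
    rw [TrivZ.valEquiv.toIntLinearEquiv.finrank_eq, Module.finrank_self]
  have hrank : Units.rank F + 1 = InfinitePlace.nrComplexPlaces F := by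
    rw [Units.rank, Nat.sub_add_cancel Fintype.card_pos, InfinitePlace.card_eq_nrRealPlaces_add_nrComplexPlaces,
      IsTotallyComplex.nrRealPlaces_eq_zero, zero_add]
  show finrank ℤ (fixedSub D (Additive (𝓞 L)ˣ × TrivZ)).toIntSubmodule = _
  rw [← hr, LinearMap.finrank_range_of_inj hf]
  have e := Submodule.finrank_quotient_add_finrank
    (LinearMap.ker (LinearMap.snd ℤ (Additive (𝓞 F)ˣ) TrivZ))
  rw [(LinearMap.snd ℤ (Additive (𝓞 F)ˣ) TrivZ).quotKerEquivRange.finrank_eq, LinearMap.range_eq_top.2 LinearMap.snd_surjective,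
    finrank_top, hT, LinearMap.ker_snd, LinearMap.finrank_range_of_inj LinearMap.inl_injective,
    Units.finrank_eq, add_comm, hrank] at e
  rw [← e]
  have h1 : finrank ℚ F = finrank ℚ K * finrank K F := (Module.finrank_mul_finrank ℚ K F).symm
  have h2 : finrank K F = D.index := by
    rw [IntermediateField.finrank_eq_fixingSubgroup_index,
      IntermediateField.fixingSubgroup_fixedField]
  rw [IsTotallyComplex.finrank, IsTotallyComplex.finrank, h2, mul_assoc] at h1
  omega

variable (σ : L ≃ₐ[K] L) (hσ : ∀ g : L ≃ₐ[K] L, g ∈ Subgroup.zpowers σ)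
include hσ

/-- The Herbrand quotient of the units is the inverse of the degree. -/
theorem units_relIndex :
    (FirstIneq.unitEnd σ - 1).range.toAddSubgroup.relIndex
        (∑ i ∈ range (finrank K L), FirstIneq.unitEnd σ ^ i).ker.toAddSubgroup =
      finrank K L * (∑ i ∈ range (finrank K L), FirstIneq.unitEnd σ ^ i).range.toAddSubgroup.relIndex
        (FirstIneq.unitEnd σ - 1).ker.toAddSubgroup := by
  have : NeZero (finrank K L) := ⟨Module.finrank_pos.ne'⟩
  have hn : orderOf σ = finrank K L := by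
    rw [orderOf_eq_card_of_forall_mem_zpowers hσ, IsGalois.card_aut_eq_finrank]
  have h := herb1_eq_herb0 σ hσ (InfinitePlace.nrComplexPlaces K) (finrank_fixed_units (K := K) (L := L))
  rw [hn, herb1_prod, herb0_prod] at h
  have hN : sigmaNorm σ (finrank K L) (Additive (𝓞 L)ˣ) =
      (∑ i ∈ range (finrank K L), FirstIneq.unitEnd σ ^ i).toAddMonoidHom :=
    AddMonoidHom.ext fun x => by
      rw [sigmaNorm_apply]
      show _ = (∑ i ∈ range (finrank K L), FirstIneq.unitEnd σ ^ i) x
      rw [LinearMap.sum_apply]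
      exact Finset.sum_congr rfl fun i _ => Additive.toMul.injective
        (Units.ext (FirstIneq.unitEnd_pow_apply σ i x).symm)
  rw [mul_comm (finrank K L)]
  rw [herb1, herb0, hN] at h
  exact h

end Units

end Cyclic

set_option linter.unusedVariables false in
/-- The index of the norm classes of an unramified cyclic 2-extension is at least the degree. -/
theorem card_range_classNorm_mul_le {K L : Type*} [Field K] [NumberField K] [Field L]
    [NumberField L] [Algebra K L] [IsGalois K L] [IsTotallyComplex K]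
    (hcyc : IsCyclic (L ≃ₐ[K] L)) (h2 : IsPGroup 2 (L ≃ₐ[K] L))
    (hunr : ∀ I : Ideal (𝓞 L), I ≠ ⊥ → I.IsPrime → I.inertia (L ≃ₐ[K] L) = ⊥) :
    Nat.card (ClassField.FirstIneq.classNorm K L).range * Module.finrank K L ≤
      Nat.card (ClassGroup (𝓞 K)) := by
  obtain ⟨σ, hσ⟩ := hcyc.exists_generator
  have : NeZero (finrank K L) := ⟨Module.finrank_pos.ne'⟩
  set n := finrank K L with hd
  -- the ambiguous class bound
  have hA := FirstIneq.card_fixed_le hd.symm σ hσ hunr
  have hB := FirstIneq.relIndex_le_card_ker hd.symm σ hσ hunr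
  rw [Cyclic.units_relIndex σ hσ] at hB
  set ι := ClassGroup.extendedHom (𝓞 K) (𝓞 L)
  have hc : Nat.card ι.ker * Nat.card ι.range = Nat.card (ClassGroup (𝓞 K)) := by
    rw [← Subgroup.index_ker, Subgroup.card_mul_index]
  -- the norm factors through the coinvariants
  let d : ClassGroup (𝓞 L) →* ClassGroup (𝓞 L) :=
    MonoidHom.mk' (fun c => FirstIneq.classAct L σ c / c) fun a b => by
      rw [map_mul, mul_div_mul_comm]
  have hle : d.range ≤ (FirstIneq.classNorm K L).ker := by
    rintro _ ⟨c, rfl⟩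
    change FirstIneq.classNorm K L (FirstIneq.classAct L σ c / c) = 1
    rw [map_div, FirstIneq.classNorm_classAct σ c, div_self']
  have h1 : Nat.card (FirstIneq.classNorm K L).range ≤ d.range.index := by
    rw [← Subgroup.index_ker]
    exact Nat.le_of_dvd (Nat.pos_of_ne_zero Subgroup.index_ne_zero_of_finite)
      (Subgroup.index_dvd_of_le hle)
  have h2' : d.range.index = Nat.card d.ker := by
    have e1 := Subgroup.card_mul_index d.range
    have e2 := Subgroup.card_mul_index d.ker
    rw [Subgroup.index_ker] at e2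
    rw [← e2, mul_comm (Nat.card d.ker)] at e1
    exact Nat.eq_of_mul_eq_mul_left Nat.card_pos e1
  have h3 : Nat.card d.ker = Nat.card {c : ClassGroup (𝓞 L) // FirstIneq.classAct L σ c = c} :=
    Nat.card_congr (Equiv.subtypeEquivRight fun c => div_eq_one)
  calc _ ≤ _ * Nat.card ι.range * n :=
        Nat.mul_le_mul_right n ((h1.trans_eq (h2'.trans h3)).trans hA)
    _ = (n * _) * Nat.card ι.range := by ring
    _ ≤ Nat.card ι.ker * Nat.card ι.range := Nat.mul_le_mul_right _ hB
    _ = _ := hc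

end Fermat.Agent.TwoAdic.Unramified

end
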