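import Fermat.Agent.ClassField.PrimeSum
import Fermat.Agent.ClassField.Analytic.LBound
import Fermat.Agent.Density.Analytic

/-!
# Primes with class in a subgroup of the class group

They have density at most one over the index, so they cannot carry more degree-one primes of
given fields than that.
-/

set_option autoImplicit false

noncomputable section

open NumberField IsDedekindDomain Filter Topology
open scoped nonZeroDivisors Classical

namespace Fermat.Agent.TwoAdic.Unramified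

variable {K : Type*} [Field K] [NumberField K]

/-- The class of a finite place. -/
def placeClass (v : HeightOneSpectrum (𝓞 K)) : ClassGroup (𝓞 K) :=
  ClassGroup.mk0 ⟨v.asIdeal, mem_nonZeroDivisors_of_ne_zero v.ne_bot⟩

/-- The extension of a class character by zero. -/
def idealChar (φ : ClassGroup (𝓞 K) →* ℂˣ) : Ideal (𝓞 K) →* ℂ where
  toFun I := if h : I = ⊥ then 0 else (φ (ClassGroup.mk0 ⟨I, mem_nonZeroDivisors_of_ne_zero h⟩) : ℂ)
  map_one' := by
    rw [dif_neg (by exact one_ne_zero)]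
    show ((φ (ClassGroup.mk0 (1 : (Ideal (𝓞 K))⁰)) : ℂˣ) : ℂ) = 1
    simp
  map_mul' I J := by
    by_cases hI : I = ⊥
    · simp [hI]
    by_cases hJ : J = ⊥
    · simp [hJ]
    rw [dif_neg (by exact mul_ne_zero hI hJ), dif_neg hI, dif_neg hJ, ← Units.val_mul, ← map_mul,
      ← map_mul]
    rfl

theorem idealChar_apply (φ : ClassGroup (𝓞 K) →* ℂˣ) {I : Ideal (𝓞 K)} (h : I ≠ ⊥) :
    idealChar φ I = (φ (ClassGroup.mk0 ⟨I, mem_nonZeroDivisors_of_ne_zero h⟩) : ℂ) :=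
  dif_neg h

/-- The primes with class in `H` have density at most `1 / index H`. -/
theorem exists_index_mul_tsum_le (H : Subgroup (ClassGroup (𝓞 K))) :
    ∃ C : ℝ, ∀ s ∈ Set.Ioc (1 : ℝ) 2, (H.index : ℝ) *
      ∑' v : {v : HeightOneSpectrum (𝓞 K) | placeClass v ∈ H},
        (Ideal.absNorm (v : HeightOneSpectrum (𝓞 K)).asIdeal : ℝ) ^ (-s) ≤
      Real.log (1 / (s - 1)) + C := by
  let Q := ClassGroup (𝓞 K) ⧸ H
  let π : ClassGroup (𝓞 K) →* Q := QuotientGroup.mk' H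
  have : Finite (Q →* ℂˣ) :=
    Finite.of_equiv Q (CommGroup.monoidHom_mulEquiv_of_hasEnoughRootsOfUnity Q ℂ).some.symm.toEquiv
  let : Fintype (Q →* ℂˣ) := Fintype.ofFinite _
  let : Fintype Q := Fintype.ofFinite _
  have hcard : Fintype.card (Q →* ℂˣ) = H.index := by
    rw [← Nat.card_eq_fintype_card, Subgroup.index]
    exact Nat.card_congr (CommGroup.monoidHom_mulEquiv_of_hasEnoughRootsOfUnity Q ℂ).some.toEquiv
  have hsum : ∀ g : Q, ∑ φ : Q →* ℂˣ, ((φ g : ℂˣ) : ℂ) =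
      if g = 1 then (Fintype.card (Q →* ℂˣ) : ℂ) else 0 := by
    intro g
    split_ifs with hg
    · simp [hg]
    obtain ⟨φ₀, hφ₀⟩ := CommGroup.exists_apply_ne_one_of_hasEnoughRootsOfUnity Q ℂ hg
    have h := Fintype.sum_equiv (Equiv.mulLeft φ₀) (fun φ : Q →* ℂˣ => ((φ₀ * φ) g : ℂ))
      (fun φ => (φ g : ℂ)) fun φ => rfl
    simp only [MonoidHom.mul_apply, Units.val_mul, ← Finset.mul_sum] at h
    by_contra hne
    exact hφ₀ (Units.ext ((mul_eq_right₀ hne).1 h))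
  have h := ClassField.card_mul_tsum_le_log (1 : Q →* ℂˣ) (fun φ => ⇑(idealChar (φ.comp π)))
    (fun φ => map_mul _) (fun φ => by rw [← Ideal.one_eq_top]; exact map_one _) ?_ ?_ ?_
    {v : HeightOneSpectrum (𝓞 K) | placeClass v ∈ H} ?_
  · obtain ⟨C, hC⟩ := h
    exact ⟨C, fun s hs => by simpa only [hcard] using hC s hs⟩
  · intro φ I
    by_cases hI : I = ⊥
    · simp [idealChar, hI]
    rw [idealChar_apply _ hI, Complex.norm_eq_one_of_pow_eq_one
      (n := Monoid.exponent (ClassGroup (𝓞 K))) ?_ Monoid.exponent_ne_zero_of_finite]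
    rw [← Units.val_pow_eq_pow_val, ← map_pow, Monoid.pow_exponent_eq_one, map_one, Units.val_one]
  · intro P _ hP k _
    simp only [idealChar_apply _ hP, MonoidHom.comp_apply, ← Units.val_pow_eq_pow_val, ← map_pow,
      hsum]
    split_ifs <;> simp
  · intro φ hφ
    have hray : ClassField.Analytic.IsRayChar (⊤ : Ideal (𝓞 K)) (idealChar (φ.comp π)) :=
      { eq_zero := fun I hI => absurd (sup_top_eq I) hI
        norm_eq_one := fun I hI _ => by
          rw [idealChar_apply _ hI, Complex.norm_eq_one_of_pow_eq_one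
            (n := Monoid.exponent (ClassGroup (𝓞 K))) ?_ Monoid.exponent_ne_zero_of_finite]
          rw [← Units.val_pow_eq_pow_val, ← map_pow, Monoid.pow_exponent_eq_one, map_one,
            Units.val_one]
        congr_mod := fun x y hx hy _ _ => by
          rw [idealChar_apply _ (by simpa using hx), idealChar_apply _ (by simpa using hy),
            (ClassGroup.mk0_eq_one_iff _).2 ⟨⟨x, rfl⟩⟩, (ClassGroup.mk0_eq_one_iff _).2 ⟨⟨y, rfl⟩⟩] }
    obtain ⟨g, hg⟩ := DFunLike.ne_iff.1 hφ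
    obtain ⟨c, rfl⟩ := QuotientGroup.mk'_surjective H g
    obtain ⟨I, rfl⟩ := ClassGroup.mk0_surjective c
    obtain ⟨C, hC⟩ := ClassField.Analytic.exists_norm_tsum_lTerm_le hray top_ne_bot
      ⟨I, nonZeroDivisors.coe_ne_zero I, sup_top_eq _, fun h => hg (Units.ext (by
        rw [idealChar_apply _ (nonZeroDivisors.coe_ne_zero I)] at h
        exact h))⟩
    exact ⟨C, fun s hs => hC s hs.1 hs.2⟩
  · intro φ v hv
    rw [idealChar_apply _ v.ne_bot, MonoidHom.comp_apply,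
      show π (ClassGroup.mk0 ⟨v.asIdeal, mem_nonZeroDivisors_of_ne_zero v.ne_bot⟩) = 1 from
        (QuotientGroup.eq_one_iff _).2 hv, map_one, Units.val_one]

/-- The counting contradiction. -/
theorem not_forall_count_le (H : Subgroup (ClassGroup (𝓞 K))) {m : ℕ} (hm : m ≤ H.index)
    (L₁ L₂ L : Type*) [Field L₁] [NumberField L₁] [Field L₂] [NumberField L₂] [Field L]
    [NumberField L] :
    ¬ ∀ ℓ : ℕ, ℓ.Prime → 2 * (Density.idealCount L₁ ℓ + Density.idealCount L₂ ℓ) ≤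
      2 * (m * {v : HeightOneSpectrum (𝓞 K) |
          Ideal.absNorm v.asIdeal = ℓ ∧ placeClass v ∈ H}.ncard) + Density.idealCount L ℓ := by
  intro hcount
  obtain ⟨CH, hH⟩ := exists_index_mul_tsum_le H
  obtain ⟨C₁, h₁⟩ := Density.exists_abs_tsum_idealCount_sub_log_le L₁
  obtain ⟨C₂, h₂⟩ := Density.exists_abs_tsum_idealCount_sub_log_le L₂
  obtain ⟨C₀, h₀⟩ := Density.exists_abs_tsum_idealCount_sub_log_le L
  set S := {v : HeightOneSpectrum (𝓞 K) | placeClass v ∈ H}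
  let W : ℝ → HeightOneSpectrum (𝓞 K) → ℝ := fun s v => (Ideal.absNorm v.asIdeal : ℝ) ^ (-s)
  let cH : Nat.Primes → ℕ := fun ℓ =>
    {v : HeightOneSpectrum (𝓞 K) | Ideal.absNorm v.asIdeal = (ℓ : ℕ) ∧ placeClass v ∈ H}.ncard
  have hfin : ∀ ℓ : Nat.Primes, {v : HeightOneSpectrum (𝓞 K) |
      Ideal.absNorm v.asIdeal = (ℓ : ℕ) ∧ placeClass v ∈ H}.Finite := fun ℓ =>
    ((Ideal.finite_setOfPred_absNorm_eq (S := 𝓞 K) (ℓ : ℕ)).preimage
      (fun v _ w _ h => HeightOneSpectrum.ext h)).subset fun v hv => hv.1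
  have hsumS : ∀ s : ℝ, 1 < s → ∀ F : Finset Nat.Primes,
      ∑ ℓ ∈ F, (cH ℓ : ℝ) * (ℓ : ℝ) ^ (-s) ≤ ∑' v : S, W s v := by
    intro s hs F
    have hsumm : Summable (W s) := (ClassField.PrimeSum.summable_wt K hs).comp_injective
      (i := fun v : HeightOneSpectrum (𝓞 K) => v.asIdeal) fun v w h => HeightOneSpectrum.ext h
    have hterm : ∀ ℓ : Nat.Primes, (cH ℓ : ℝ) * (ℓ : ℝ) ^ (-s) = ∑ v ∈ (hfin ℓ).toFinset, W s v := by
      intro ℓ
      rw [Finset.sum_congr rfl fun v hv => show W s v = (ℓ : ℝ) ^ (-s) by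
        simp only [Set.Finite.mem_toFinset, Set.mem_ofPred_eq] at hv
        simp [W, hv.1], Finset.sum_const, nsmul_eq_mul, ← Set.ncard_eq_toFinset_card _ (hfin ℓ)]
    rw [Finset.sum_congr rfl fun ℓ _ => hterm ℓ,
      ← Finset.sum_biUnion (fun ℓ _ ℓ' _ hne => Finset.disjoint_left.mpr fun v hv hv' => hne (by
        simp only [Set.Finite.mem_toFinset, Set.mem_ofPred_eq] at hv hv'
        exact Subtype.ext (hv.1.symm.trans hv'.1))), tsum_subtype S (W s)]
    refine le_of_eq_of_le (Finset.sum_congr rfl fun v hv => ?_)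
      ((hsumm.indicator _).sum_le_tsum _ fun v _ => Set.indicator_nonneg (fun _ _ => by positivity) v)
    obtain ⟨ℓ, -, hv'⟩ := Finset.mem_biUnion.1 hv
    simp only [Set.Finite.mem_toFinset, Set.mem_ofPred_eq] at hv'
    rw [Set.indicator_of_mem (show v ∈ S from hv'.2)]
  have htend : Tendsto (fun s : ℝ ↦ Real.log (1 / (s - 1))) (𝓝[>] 1) atTop := by
    refine Real.tendsto_log_atTop.comp ?_
    have h : Tendsto (fun s : ℝ ↦ s - 1) (𝓝[>] 1) (𝓝[>] 0) := by
      refine tendsto_nhdsWithin_of_tendsto_nhds_of_eventually_within _ ?_ ?_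
      · exact ((continuous_sub_right (1 : ℝ)).tendsto' 1 0 (sub_self 1)).mono_left
          nhdsWithin_le_nhds
      · filter_upwards [self_mem_nhdsWithin] with s hs
        exact sub_pos.mpr (Set.mem_Ioi.mp hs)
    simpa [one_div, Function.comp_def] using tendsto_inv_nhdsGT_zero.comp h
  obtain ⟨s, ⟨hs₁, e₁⟩, ⟨hs₂, e₂⟩, ⟨hs₀, e₀⟩, hs, hbig⟩ := (h₁.and (h₂.and (h₀.and
    ((show ∀ᶠ s in 𝓝[>] (1 : ℝ), s ∈ Set.Ioc (1 : ℝ) 2 from Ioc_mem_nhdsGT (by norm_num)).and
    (htend.eventually_gt_atTop (2 * C₁ + 2 * C₂ + C₀ + 2 * CH)))))).exists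
  have hm' : (m : ℝ) * ∑' v : S, W s v ≤ Real.log (1 / (s - 1)) + CH :=
    (mul_le_mul_of_nonneg_right (Nat.cast_le.2 hm)
      (tsum_nonneg fun v => by positivity)).trans (hH s hs)
  have key : 2 * ((∑' ℓ : Nat.Primes, (Density.idealCount L₁ ℓ : ℝ) * (ℓ : ℝ) ^ (-s)) +
      ∑' ℓ : Nat.Primes, (Density.idealCount L₂ ℓ : ℝ) * (ℓ : ℝ) ^ (-s)) ≤
      2 * ((m : ℝ) * ∑' v : S, W s v) +
        ∑' ℓ : Nat.Primes, (Density.idealCount L ℓ : ℝ) * (ℓ : ℝ) ^ (-s) := by
    rw [← hs₁.tsum_add hs₂, ← tsum_mul_left]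
    refine Real.tsum_le_of_sum_le (fun ℓ => by positivity) fun F => ?_
    refine (Finset.sum_le_sum fun (ℓ : Nat.Primes) _ => show
      2 * ((Density.idealCount L₁ ℓ : ℝ) * (ℓ : ℝ) ^ (-s) +
        (Density.idealCount L₂ ℓ : ℝ) * (ℓ : ℝ) ^ (-s)) ≤
      2 * (m : ℝ) * ((cH ℓ : ℝ) * (ℓ : ℝ) ^ (-s)) +
        (Density.idealCount L ℓ : ℝ) * (ℓ : ℝ) ^ (-s) from ?_).trans ?_
    · have hpos : (0 : ℝ) ≤ (ℓ : ℝ) ^ (-s) := by positivity
      have := mul_le_mul_of_nonneg_right (show (2 : ℝ) * ((Density.idealCount L₁ ℓ : ℝ) +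
        Density.idealCount L₂ ℓ) ≤ 2 * ((m : ℝ) * (cH ℓ : ℝ)) + Density.idealCount L ℓ from by
          exact_mod_cast hcount ℓ ℓ.2) hpos
      linarith
    rw [Finset.sum_add_distrib, ← Finset.mul_sum]
    refine add_le_add ?_ (hs₀.sum_le_tsum _ fun ℓ _ => by positivity)
    have := mul_le_mul_of_nonneg_left (hsumS s hs.1 F) (Nat.cast_nonneg (α := ℝ) m)
    linarith
  obtain ⟨l₁, -⟩ := abs_le.mp e₁
  obtain ⟨l₂, -⟩ := abs_le.mp e₂
  obtain ⟨-, u₀⟩ := abs_le.mp e₀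
  linarith

end Fermat.Agent.TwoAdic.Unramified

end
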