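import Fermat.Agent.ClassField.FirstInequality

/-!
# Unramified Galois extensions: subextensions, primes of degree one, a group lemma
-/

set_option autoImplicit false

noncomputable section

open scoped NumberField nonZeroDivisors Pointwise
open NumberField Module Fermat.Agent.ClassField.FirstIneq

namespace Fermat.Agent.TwoAdic.Unramified

/-- A commutative 2-group with at most one element of order two is cyclic. -/
theorem isCyclic_of_involution_le_one {G : Type*} [CommGroup G] [Finite G] (h2 : IsPGroup 2 G)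
    (h : ∀ a b : G, a * a = 1 → b * b = 1 → a ≠ 1 → b ≠ 1 → a = b) : IsCyclic G := by
  classical
  let : Fintype G := Fintype.ofFinite G
  have hsq : Nat.card {a : G // a * a = 1} ≤ 2 := by
    refine (Nat.card_le_card_of_injective (fun a : {a : G // a * a = 1} => decide (a.1 = 1))
      fun a b hab => Subtype.ext ?_).trans (by simp)
    by_cases ha : a.1 = 1
    · have hb : b.1 = 1 := by simpa [ha] using hab.symm
      rw [ha, hb]
    · have hb : b.1 ≠ 1 := by simpa [ha] using hab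
      exact h _ _ a.2 b.2 ha hb
  have key : ∀ j : ℕ, Nat.card {a : G // a ^ (2 ^ j) = 1} ≤ 2 ^ j := by
    intro j
    induction j with
    | zero =>
      refine le_of_eq ?_
      rw [pow_zero, Nat.card_eq_one_iff_exists]
      exact ⟨⟨1, pow_one 1⟩, fun a => Subtype.ext (by simpa using a.2)⟩
    | succ j ih =>
      rw [pow_succ (2 : ℕ) j]
      let f : {a : G // a ^ (2 ^ j * 2) = 1} → {a : G // a ^ (2 ^ j) = 1} :=
        fun a => ⟨a.1 * a.1, by
          rw [← pow_two, ← pow_mul]; exact (congrArg (a.1 ^ ·) (Nat.mul_comm _ _)).trans a.2⟩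
      let rep : {a : G // a ^ (2 ^ j) = 1} → G := fun b =>
        if hb : ∃ a, f a = b then (hb.choose : G) else 1
      have hrep : ∀ a, (a.1 / rep (f a)) * (a.1 / rep (f a)) = 1 := by
        intro a
        have hex : ∃ a', f a' = f a := ⟨a, rfl⟩
        simp only [rep, dif_pos hex]
        rw [div_mul_div_comm, div_eq_one]
        exact (congrArg Subtype.val hex.choose_spec).symm
      refine (Nat.card_le_card_of_injective
        (fun a => (f a, (⟨a.1 / rep (f a), hrep a⟩ : {a : G // a * a = 1})))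
        fun a b hab => Subtype.ext ?_).trans ?_
      · obtain ⟨h1, h2'⟩ := Prod.ext_iff.1 hab
        have h3 := congrArg Subtype.val h2'
        simp only at h1 h3
        rw [h1] at h3
        exact div_left_injective h3
      · rw [Nat.card_prod]
        exact Nat.mul_le_mul ih hsq
  refine isCyclic_of_card_pow_eq_one_le fun n hn => ?_
  obtain ⟨k, hk⟩ := IsPGroup.iff_card.1 h2
  obtain ⟨j, -, hj⟩ := (Nat.dvd_prime_pow Nat.prime_two).1 (Nat.gcd_dvd_right n (2 ^ k))
  have hle : 2 ^ j ≤ n := hj ▸ Nat.le_of_dvd hn (Nat.gcd_dvd_left n _)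
  rw [← Fintype.card_subtype, ← Nat.card_eq_fintype_card]
  refine (le_of_eq (Nat.card_congr (Equiv.subtypeEquivRight fun a => ?_))).trans ((key j).trans hle)
  rw [← hj]
  refine ⟨fun ha => pow_gcd_eq_one.2 ⟨ha, by rw [← hk]; exact pow_card_eq_one'⟩, fun ha => ?_⟩
  obtain ⟨c, hc⟩ := Nat.gcd_dvd_left n (2 ^ k)
  rw [hc, pow_mul, ha, one_pow]

/-- Inertia is trivial in a Galois subextension of an unramified extension. -/
theorem inertia_eq_bot_of_tower {K E L : Type*} [Field K] [NumberField K] [Field E] [NumberField E]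
    [Field L] [NumberField L] [Algebra K E] [Algebra K L] [Algebra E L] [IsScalarTower K E L]
    [IsGalois K L] [IsGalois K E]
    (hunr : ∀ Q : Ideal (𝓞 L), Q ≠ ⊥ → Q.IsPrime → Q.inertia (L ≃ₐ[K] L) = ⊥)
    (I : Ideal (𝓞 E)) (hI : I ≠ ⊥) (hIp : I.IsPrime) : I.inertia (E ≃ₐ[K] E) = ⊥ := by
  have : IsGalois E L := IsGalois.tower_top_of_isGalois K E L
  have : I.IsMaximal := hIp.isMaximal hI
  set P := I.under (𝓞 K) with hPdef
  have : I.LiesOver P := Ideal.over_under I
  have : P.IsMaximal := Ideal.IsMaximal.under (𝓞 K) I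
  have hP : P ≠ ⊥ := mt (Ideal.eq_bot_of_comap_eq_bot (R := 𝓞 K)) hI
  obtain ⟨Q, hQm, hQo⟩ := Ideal.exists_maximal_ideal_liesOver_of_isIntegral (S := 𝓞 L) I
  have : Q.LiesOver P := Ideal.LiesOver.trans Q I P
  have : Finite (𝓞 K ⧸ P) := Ideal.finiteQuotientOfFreeOfNeBot P hP
  have : Finite P.ResidueField := Finite.of_surjective _
    P.bijective_algebraMap_quotient_residueField.surjective
  have : Nonempty (I.primesOver (𝓞 L)) := ⟨⟨Q, hQm.isPrime, hQo⟩⟩
  have hL := Ideal.card_inertia_eq_ramificationIdxIn (G := L ≃ₐ[K] L) P Q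
  rw [hunr Q (Ideal.ne_bot_of_liesOver_of_ne_bot hI Q) hQm.isPrime, Subgroup.card_bot] at hL
  have hmul := Ideal.ramificationIdxIn_mul_ramificationIdxIn (p := P) I (E ≃ₐ[K] E) (𝓞 L)
    (L ≃ₐ[K] L) (L ≃ₐ[E] L)
  rw [← hL] at hmul
  have hE := Ideal.card_inertia_eq_ramificationIdxIn (G := E ≃ₐ[K] E) P I
  rw [Nat.eq_one_of_mul_eq_one_right hmul] at hE
  exact Subgroup.eq_bot_of_card_eq _ hE

section DegreeOne

variable {K F : Type*} [Field K] [NumberField K] [Field F] [NumberField F] [Algebra K F]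

theorem ncard_primesOver_le (P : Ideal (𝓞 K)) [P.IsMaximal] (hP : P ≠ ⊥) [IsGalois K F] :
    (P.primesOver (𝓞 F)).ncard ≤ finrank K F := by
  have h := Ideal.ncard_primesOver_mul_ramificationIdxIn_mul_inertiaDegIn P (𝓞 F) (F ≃ₐ[K] F)
  rw [IsGalois.card_aut_eq_finrank] at h
  rw [← h]
  refine Nat.le_mul_of_pos_right _ (Nat.pos_of_ne_zero fun h0 => ?_)
  rw [h0, mul_zero] at h
  exact (finrank_pos (R := K) (M := F)).ne h

/-- Over a prime of degree one: a prime with the same norm shows the base prime splits completely,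
and its class is a norm. -/
theorem split_of_absNorm_prime [IsGalois K F]
    (hunr : ∀ Q : Ideal (𝓞 F), Q ≠ ⊥ → Q.IsPrime → Q.inertia (F ≃ₐ[K] F) = ⊥)
    (W : Ideal (𝓞 F)) {ℓ : ℕ} (hℓ : ℓ.Prime) (hW : Ideal.absNorm W = ℓ) :
    Ideal.absNorm (W.under (𝓞 K)) = ℓ ∧
      ((W.under (𝓞 K)).primesOver (𝓞 F)).ncard = finrank K F ∧
      ∀ P : (Ideal (𝓞 K))⁰, (P : Ideal (𝓞 K)) = W.under (𝓞 K) →
        ClassGroup.mk0 P ∈ (classNorm K F).range := by
  have hWp : W.IsPrime := Ideal.isPrime_of_irreducible_absNorm (by rw [hW]; exact hℓ)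
  have hW0 : W ≠ ⊥ := fun h => hℓ.ne_zero (by rw [← hW, h, Ideal.absNorm_bot])
  have : W.IsMaximal := hWp.isMaximal hW0
  set P := W.under (𝓞 K) with hPdef
  have : W.LiesOver P := Ideal.over_under W
  have : P.IsMaximal := Ideal.IsMaximal.under (𝓞 K) W
  have hP : P ≠ ⊥ := mt (Ideal.eq_bot_of_comap_eq_bot (R := 𝓞 K)) hW0
  have hrel : Ideal.relNorm (𝓞 K) W = P ^ W.inertiaDeg (𝓞 K) :=
    Ideal.relNorm_eq_pow_of_isMaximal W P
  have hN := Ideal.absNorm_relNorm (𝓞 K) (𝓞 F) W
  rw [hrel, map_pow, hW] at hN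
  have hP1 : Ideal.absNorm P ≠ 1 := by
    rw [Ne, Ideal.absNorm_eq_one_iff]
    exact Ideal.IsMaximal.ne_top inferInstance
  have hf : W.inertiaDeg (𝓞 K) = 1 := by
    have h1 := hℓ
    rw [← hN] at h1
    exact (Nat.Prime.eq_one_of_pow h1)
  rw [hf, pow_one] at hN hrel
  refine ⟨hN, ?_, fun P' hP' => ⟨ClassGroup.mk0 ⟨W, mem_nonZeroDivisors_of_ne_zero hW0⟩,
    classNorm_mk0 _ _ (hP'.trans hrel.symm)⟩⟩
  have : Finite (𝓞 K ⧸ P) := Ideal.finiteQuotientOfFreeOfNeBot P hP
  have : Finite P.ResidueField := Finite.of_surjective _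
    P.bijective_algebraMap_quotient_residueField.surjective
  have h := Ideal.ncard_primesOver_mul_card_inertia_mul_finrank (G := F ≃ₐ[K] F) P W
  rw [hunr W hW0 hWp, Subgroup.card_bot, mul_one, hf, mul_one, IsGalois.card_aut_eq_finrank] at h
  exact h

end DegreeOne

section Compositum

variable {K E L : Type*} [Field K] [NumberField K] [Field E] [NumberField E] [Field L]
  [NumberField L] [Algebra K E] [Algebra K L] [Algebra E L] [IsScalarTower K E L] [Normal K E]

/-- An automorphism fixing a prime over a completely split prime of the subfield fixes the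
subfield. -/
theorem restrictNormal_eq_one_of_split [IsGalois K L] [IsGalois K E] (P : Ideal (𝓞 K))
    [P.IsMaximal] (hE : (P.primesOver (𝓞 E)).ncard = finrank K E)
    (Q : Ideal (𝓞 L)) [Q.IsPrime] [Q.LiesOver P] {σ : L ≃ₐ[K] L} (hσ : σ • Q = Q) :
    AlgEquiv.restrictNormalHom E σ = 1 := by
  set I := Q.under (𝓞 E)
  have hIP : I.LiesOver P := ⟨by rw [Ideal.under_under]; exact Ideal.over_def Q P⟩
  have horb := Nat.card_congr (MulAction.orbitProdStabilizerEquivGroup (E ≃ₐ[K] E) I)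
  rw [Nat.card_prod, Algebra.IsInvariant.orbit_eq_primesOver (𝓞 K) (𝓞 E) (E ≃ₐ[K] E) P I,
    Nat.card_coe_set_eq, hE, IsGalois.card_aut_eq_finrank] at horb
  have hstab : MulAction.stabilizer (E ≃ₐ[K] E) I = ⊥ :=
    Subgroup.eq_bot_of_card_eq _ (Nat.eq_of_mul_eq_mul_left finrank_pos (horb.trans (mul_one _).symm))
  have hmem : AlgEquiv.restrictNormalHom E σ ∈ MulAction.stabilizer (E ≃ₐ[K] E) I := by
    rw [MulAction.mem_stabilizer_iff]
    ext x
    rw [Ideal.mem_pointwise_smul_iff_inv_smul_mem, ← map_inv, Ideal.mem_comap, Ideal.mem_comap]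
    have hc : algebraMap (𝓞 E) (𝓞 L) (AlgEquiv.restrictNormalHom E σ⁻¹ • x) =
        σ⁻¹ • algebraMap (𝓞 E) (𝓞 L) x := by
      apply RingOfIntegers.coe_injective
      exact AlgEquiv.restrictNormal_commutes σ⁻¹ E (x : E)
    rw [hc]
    conv_rhs => rw [← hσ, Ideal.mem_pointwise_smul_iff_inv_smul_mem]
  rwa [hstab, Subgroup.mem_bot] at hmem

end Compositum

end Fermat.Agent.TwoAdic.Unramified

end
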