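import Fermat.Agent.TwoAdic.Unramified.Cyclic
import Fermat.Agent.TwoAdic.Unramified.Tower
import Fermat.Agent.TwoAdic.Unramified.Density

/-!
# Unramified abelian 2-extensions: the norm classes have index at least the degree

Induction on the degree.  A cyclic extension is the ambiguous class bound.  Otherwise there are two
subextensions of half degree; if the index were smaller than the degree, all three groups of norm
classes would be one group of index half the degree, and too many primes of degree one would have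
their class in it.
-/

set_option autoImplicit false

noncomputable section

open scoped NumberField nonZeroDivisors Pointwise Classical
open NumberField Module IsDedekindDomain
open Fermat.Agent.ClassField.FirstIneq (classNorm classNorm_mk0)

namespace Fermat.Agent.TwoAdic.Unramified

universe u v

/-- The norm classes from a tower. -/
theorem range_classNorm_le {K E L : Type*} [Field K] [NumberField K] [Field E] [NumberField E]
    [Field L] [NumberField L] [Algebra K E] [Algebra K L] [Algebra E L] [IsScalarTower K E L]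
    [IsGalois K L] [IsGalois K E] [IsGalois E L] :
    (classNorm K L).range ≤ (classNorm K E).range := by
  rintro _ ⟨c, rfl⟩
  obtain ⟨J, rfl⟩ := ClassGroup.mk0_surjective c
  let I : (Ideal (𝓞 E))⁰ := ⟨Ideal.relNorm (𝓞 E) (J : Ideal (𝓞 L)), mem_nonZeroDivisors_of_ne_zero
    (mt Ideal.relNorm_eq_bot_iff.1 (nonZeroDivisors.coe_ne_zero J))⟩
  let N : (Ideal (𝓞 K))⁰ := ⟨Ideal.relNorm (𝓞 K) (J : Ideal (𝓞 L)), mem_nonZeroDivisors_of_ne_zero
    (mt Ideal.relNorm_eq_bot_iff.1 (nonZeroDivisors.coe_ne_zero J))⟩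
  refine ⟨ClassGroup.mk0 I, ?_⟩
  rw [classNorm_mk0 J N rfl, classNorm_mk0 I N (Ideal.relNorm_relNorm (𝓞 K) (𝓞 E) _).symm]

variable {K : Type u} [Field K] [NumberField K]

/-- The primes of a given degree-one norm, by prime of the base. -/
theorem idealCount_eq_sum (F : Type*) [Field F] [NumberField F] [Algebra K F] [IsGalois K F]
    (hunr : ∀ Q : Ideal (𝓞 F), Q ≠ ⊥ → Q.IsPrime → Q.inertia (F ≃ₐ[K] F) = ⊥)
    {ℓ : ℕ} (hℓ : ℓ.Prime) (T : Finset (HeightOneSpectrum (𝓞 K)))
    (hT : ∀ v, v ∈ T ↔ Ideal.absNorm v.asIdeal = ℓ) :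
    Density.idealCount F ℓ =
      ∑ v ∈ T, {W : Ideal (𝓞 F) | Ideal.absNorm W = ℓ ∧ W.under (𝓞 K) = v.asIdeal}.ncard := by
  set S := (Ideal.finite_setOfPred_absNorm_eq (S := 𝓞 F) ℓ).toFinset with hS
  have hcount : Density.idealCount F ℓ = S.card := by
    rw [hS, ← Set.ncard_eq_toFinset_card _ _, ← Nat.card_coe_set_eq]
    rfl
  have hmem : ∀ W ∈ S, W.under (𝓞 K) ∈ T.image HeightOneSpectrum.asIdeal := by
    intro W hW
    rw [hS, Set.Finite.mem_toFinset] at hW
    have hN := (split_of_absNorm_prime hunr W hℓ hW).1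
    have hne : W.under (𝓞 K) ≠ ⊥ := fun h => hℓ.ne_zero (by rw [← hN, h, Ideal.absNorm_bot])
    exact Finset.mem_image.2 ⟨⟨_, Ideal.isPrime_of_irreducible_absNorm (by rw [hN]; exact hℓ), hne⟩,
      (hT _).2 hN, rfl⟩
  rw [hcount, Finset.card_eq_sum_card_fiberwise hmem,
    Finset.sum_image fun v _ w _ h => HeightOneSpectrum.ext h]
  refine Finset.sum_congr rfl fun v _ => ?_
  rw [← Set.ncard_coe_finset]
  congr 1
  ext W
  simp [hS]

/-- The index of the norm classes of a 2-extension is a power of two. -/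
theorem exists_index_range_classNorm_eq_two_pow {L : Type v} [Field L] [NumberField L]
    [Algebra K L] [IsGalois K L] (h2 : IsPGroup 2 (L ≃ₐ[K] L)) :
    ∃ e, (classNorm K L).range.index = 2 ^ e := by
  have hp : IsPGroup 2 (ClassGroup (𝓞 K) ⧸ (classNorm K L).range) := by
    intro q
    obtain ⟨c, rfl⟩ := QuotientGroup.mk'_surjective (classNorm K L).range q
    obtain ⟨k, hk⟩ := IsPGroup.iff_card.1 h2
    rw [IsGalois.card_aut_eq_finrank] at hk
    refine ⟨k, ?_⟩
    rw [← map_pow, QuotientGroup.mk'_apply, QuotientGroup.eq_one_iff]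
    obtain ⟨I, rfl⟩ := ClassGroup.mk0_surjective c
    refine ⟨ClassGroup.mk0 (ClassGroup.extendedIdeal (𝓞 K) (𝓞 L) I), ?_⟩
    rw [classNorm_mk0 _ (I ^ 2 ^ k), map_pow]
    rw [SubmonoidClass.coe_pow, Ideal.relNorm_algebraMap,
      ← IsFractionRing.finrank_eq (𝓞 K) K (𝓞 L) L, hk]
  exact IsPGroup.iff_card.1 hp

/-- **The norm classes of an unramified abelian 2-extension have index at least the degree.** -/
theorem finrank_le_index_range_classNorm [IsTotallyComplex K] (n : ℕ) :
    ∀ (L : Type v) [Field L] [NumberField L] [Algebra K L] [IsGalois K L],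
      finrank K L = n → (∀ a b : L ≃ₐ[K] L, a * b = b * a) → IsPGroup 2 (L ≃ₐ[K] L) →
      (∀ Q : Ideal (𝓞 L), Q ≠ ⊥ → Q.IsPrime → Q.inertia (L ≃ₐ[K] L) = ⊥) →
      n ≤ (classNorm K L).range.index := by
  induction n using Nat.strong_induction_on with
  | _ n ih =>
  intro L _ _ _ _ hn hab h2 hunr
  set H := (classNorm K L).range
  have hHpos : 0 < Nat.card H := Nat.card_pos
  by_cases hcyc : IsCyclic (L ≃ₐ[K] L)
  · refine Nat.le_of_mul_le_mul_left ?_ hHpos
    rw [Subgroup.card_mul_index, ← hn]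
    exact card_range_classNorm_mul_le hcyc h2 hunr
  -- two subgroups of order two
  obtain ⟨a, b, ha, hb, ha1, hb1, hne⟩ : ∃ a b : L ≃ₐ[K] L,
      a * a = 1 ∧ b * b = 1 ∧ a ≠ 1 ∧ b ≠ 1 ∧ a ≠ b := by
    by_contra! h
    let : CommGroup (L ≃ₐ[K] L) := { (inferInstance : Group (L ≃ₐ[K] L)) with mul_comm := hab }
    exact hcyc (isCyclic_of_involution_le_one h2 h)
  have hnormal : ∀ C : Subgroup (L ≃ₐ[K] L), C.Normal :=
    fun C => ⟨fun x hx g => by rw [hab g x, mul_inv_cancel_right]; exact hx⟩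
  have hord : ∀ c : L ≃ₐ[K] L, c * c = 1 → c ≠ 1 → Nat.card (Subgroup.zpowers c) = 2 := by
    intro c hc hc1
    rw [Nat.card_zpowers]
    exact orderOf_eq_prime (by rw [pow_two, hc]) hc1
  let Ea : IntermediateField K L := IntermediateField.fixedField (Subgroup.zpowers a)
  let Eb : IntermediateField K L := IntermediateField.fixedField (Subgroup.zpowers b)
  have := hnormal (Subgroup.zpowers a)
  have := hnormal (Subgroup.zpowers b)
  have hga : IsGalois K Ea := IsGalois.of_fixedField_normal_subgroup _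
  have hgb : IsGalois K Eb := IsGalois.of_fixedField_normal_subgroup _
  have : NumberField Ea := NumberField.of_module_finite K Ea
  have : NumberField Eb := NumberField.of_module_finite K Eb
  have hdeg : ∀ (c : L ≃ₐ[K] L), c * c = 1 → c ≠ 1 →
      2 * finrank K (IntermediateField.fixedField (Subgroup.zpowers c)) = n := by
    intro c hc hc1
    rw [← hn, ← Module.finrank_mul_finrank K (IntermediateField.fixedField (Subgroup.zpowers c)) L,
      IntermediateField.finrank_fixedField_eq_card, hord c hc hc1, mul_comm]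
  obtain ⟨m, hm⟩ : ∃ m, n = 2 * m := ⟨_, (hdeg a ha ha1).symm⟩
  have hma : finrank K Ea = m := by have := hdeg a ha ha1; change 2 * finrank K Ea = n at this; omega
  have hmb : finrank K Eb = m := by have := hdeg b hb hb1; change 2 * finrank K Eb = n at this; omega
  have hnpos : 0 < n := hn ▸ finrank_pos
  have hab' : ∀ (E : IntermediateField K L) [IsGalois K E], ∀ x y : E ≃ₐ[K] E, x * y = y * x := by
    intro E _ x y
    obtain ⟨x', rfl⟩ := AlgEquiv.restrictNormalHom_surjective (F := K) (K₁ := E) L x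
    obtain ⟨y', rfl⟩ := AlgEquiv.restrictNormalHom_surjective (F := K) (K₁ := E) L y
    rw [← map_mul, ← map_mul, hab]
  have h2' : ∀ (E : IntermediateField K L) [IsGalois K E], IsPGroup 2 (E ≃ₐ[K] E) := fun E _ =>
    h2.of_surjective (AlgEquiv.restrictNormalHom (F := K) (K₁ := L) E)
      (AlgEquiv.restrictNormalHom_surjective L)
  have hua : ∀ Q : Ideal (𝓞 Ea), Q ≠ ⊥ → Q.IsPrime → Q.inertia (Ea ≃ₐ[K] Ea) = ⊥ :=
    inertia_eq_bot_of_tower hunr
  have hub : ∀ Q : Ideal (𝓞 Eb), Q ≠ ⊥ → Q.IsPrime → Q.inertia (Eb ≃ₐ[K] Eb) = ⊥ :=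
    inertia_eq_bot_of_tower hunr
  have hIa := ih m (by omega) Ea hma (hab' Ea) (h2' Ea) hua
  have hIb := ih m (by omega) Eb hmb (hab' Eb) (h2' Eb) hub
  have hlea : H ≤ (classNorm K Ea).range := range_classNorm_le
  have hleb : H ≤ (classNorm K Eb).range := range_classNorm_le
  obtain ⟨e, he⟩ : ∃ e, H.index = 2 ^ e := exists_index_range_classNorm_eq_two_pow h2
  obtain ⟨k, hk⟩ := IsPGroup.iff_card.1 h2
  rw [IsGalois.card_aut_eq_finrank, hn] at hk
  by_contra hlt
  rw [not_le, hk, he] at hlt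
  have hek : e < k := (Nat.pow_lt_pow_iff_right (by norm_num)).1 hlt
  have hle : H.index ≤ m := by
    have h1 : 2 ^ e * 2 ≤ 2 ^ k := by rw [← pow_succ]; exact Nat.pow_le_pow_right two_pos hek
    omega
  have heq : ∀ (G : Subgroup (ClassGroup (𝓞 K))), H ≤ G → m ≤ G.index → G = H := by
    intro G hG hmG
    have h1 := Subgroup.relIndex_mul_index hG
    refine le_antisymm (Subgroup.relIndex_eq_one.1 ?_) hG
    have hG0 : 0 < G.index := Nat.pos_of_ne_zero Subgroup.index_ne_zero_of_finite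
    have hH0 : 0 < H.index := Nat.pos_of_ne_zero Subgroup.index_ne_zero_of_finite
    nlinarith [Nat.zero_le (H.relIndex G)]
  have hHa := heq _ hlea hIa
  have hHb := heq _ hleb hIb
  have hmH : m ≤ H.index := hHa ▸ hIa
  refine not_forall_count_le H hmH Ea Eb L fun ℓ hℓ => ?_
  have hfin : {v : HeightOneSpectrum (𝓞 K) | Ideal.absNorm v.asIdeal = ℓ}.Finite :=
    (Ideal.finite_setOfPred_absNorm_eq (S := 𝓞 K) ℓ).preimage
      fun v _ w _ h => HeightOneSpectrum.ext h
  set T := hfin.toFinset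
  have hT : ∀ v, v ∈ T ↔ Ideal.absNorm v.asIdeal = ℓ := fun v => hfin.mem_toFinset
  rw [idealCount_eq_sum Ea hua hℓ T hT, idealCount_eq_sum Eb hub hℓ T hT,
    idealCount_eq_sum L hunr hℓ T hT]
  have hTH : {v : HeightOneSpectrum (𝓞 K) | Ideal.absNorm v.asIdeal = ℓ ∧ placeClass v ∈ H}.ncard =
      ∑ v ∈ T, if placeClass v ∈ H then 1 else 0 := by
    rw [← Finset.card_filter, ← Set.ncard_coe_finset]
    congr 1
    ext v
    simp [hT]
  rw [hTH, Finset.mul_sum, Finset.mul_sum, mul_add, Finset.mul_sum, Finset.mul_sum,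
    ← Finset.sum_add_distrib, ← Finset.sum_add_distrib]
  refine Finset.sum_le_sum fun v hv => ?_
  have hvℓ := (hT v).1 hv
  have : v.asIdeal.IsMaximal := v.isMaximal
  -- the contribution of one prime
  have hc : ∀ (F : IntermediateField K L) [IsGalois K F] [NumberField F],
      (∀ Q : Ideal (𝓞 F), Q ≠ ⊥ → Q.IsPrime → Q.inertia (F ≃ₐ[K] F) = ⊥) →
      finrank K F = m → (classNorm K F).range = H →
      {W : Ideal (𝓞 F) | Ideal.absNorm W = ℓ ∧ W.under (𝓞 K) = v.asIdeal}.ncard = 0 ∨
      ({W : Ideal (𝓞 F) | Ideal.absNorm W = ℓ ∧ W.under (𝓞 K) = v.asIdeal}.ncard ≤ m ∧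
        placeClass v ∈ H ∧ (v.asIdeal.primesOver (𝓞 F)).ncard = finrank K F) := by
    intro F _ _ huF hmF hHF
    set Wset := {W : Ideal (𝓞 F) | Ideal.absNorm W = ℓ ∧ W.under (𝓞 K) = v.asIdeal}
    rcases Set.eq_empty_or_nonempty Wset with h | ⟨W, hW, hWv⟩
    · exact Or.inl (by rw [h, Set.ncard_empty])
    obtain ⟨-, hsplit, hcl⟩ := split_of_absNorm_prime huF W hℓ hW
    rw [hWv] at hsplit hcl
    refine Or.inr ⟨?_, hHF ▸ hcl _ rfl, hsplit⟩
    rw [← hmF, ← hsplit]
    refine Set.ncard_le_ncard (fun W' hW' => ⟨Ideal.isPrime_of_irreducible_absNorm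
      (by rw [hW'.1]; exact hℓ), ⟨hW'.2.symm⟩⟩)
      (Set.finite_of_ncard_ne_zero (by rw [hsplit]; exact finrank_pos.ne'))
  rcases hc Ea hua hma hHa with hA | ⟨hA, hH1, hsA⟩ <;>
    rcases hc Eb hub hmb hHb with hB | ⟨hB, hH2, hsB⟩
  · rw [hA, hB]; omega
  · rw [hA, if_pos hH2]; omega
  · rw [hB, if_pos hH1]; omega
  -- split in both, hence in `L`
  have hL : m * 2 ≤
      {W : Ideal (𝓞 L) | Ideal.absNorm W = ℓ ∧ W.under (𝓞 K) = v.asIdeal}.ncard := by
    have hfull : (v.asIdeal.primesOver (𝓞 L)).ncard = n ∧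
        ∀ W ∈ v.asIdeal.primesOver (𝓞 L), Ideal.absNorm W = ℓ := by
      have hstab : ∀ W : Ideal (𝓞 L), W.IsPrime → W.LiesOver v.asIdeal →
          MulAction.stabilizer (L ≃ₐ[K] L) W = ⊥ := by
        intro W _ _
        rw [eq_bot_iff]
        intro σ hσ
        have h1 := restrictNormal_eq_one_of_split (E := Ea) v.asIdeal hsA W hσ
        have h2 := restrictNormal_eq_one_of_split (E := Eb) v.asIdeal hsB W hσ
        rw [← MonoidHom.mem_ker, IntermediateField.restrictNormalHom_ker,
          IntermediateField.fixingSubgroup_fixedField] at h1 h2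
        obtain ⟨i, rfl⟩ := h1
        obtain ⟨j, hj⟩ := h2
        simp only at hj ⊢
        have hz : ∀ c : L ≃ₐ[K] L, c * c = 1 → ∀ t : ℤ, c ^ t = 1 ∨ c ^ t = c := by
          intro c hc t
          have hc2 : c ^ (2 : ℤ) = 1 := by rw [zpow_two, hc]
          rw [← Int.emod_add_mul_ediv t 2, zpow_add, zpow_mul, hc2, one_zpow, mul_one]
          rcases Int.emod_two_eq_zero_or_one t with h | h <;> simp [h]
        rcases hz a ha i with hi | hi
        · simp [hi]
        exfalso
        rw [hi] at hj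
        rcases hz b hb j with hj' | hj'
        · exact ha1 (by rw [← hj, hj'])
        · exact hne (by rw [← hj, hj'])
      have key : ∀ W ∈ v.asIdeal.primesOver (𝓞 L),
          (v.asIdeal.primesOver (𝓞 L)).ncard = n ∧ Ideal.absNorm W = ℓ := by
        intro W hW
        have := hW.1
        have := hW.2
        have hW0 : W ≠ ⊥ := Ideal.ne_bot_of_liesOver_of_ne_bot v.ne_bot W
        have : W.IsMaximal := hW.1.isMaximal hW0
        have horb := Nat.card_congr (MulAction.orbitProdStabilizerEquivGroup (L ≃ₐ[K] L) W)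
        rw [Nat.card_prod, Algebra.IsInvariant.orbit_eq_primesOver (𝓞 K) (𝓞 L) (L ≃ₐ[K] L)
          v.asIdeal W, Nat.card_coe_set_eq, hstab W hW.1 hW.2, Subgroup.card_bot, mul_one,
          IsGalois.card_aut_eq_finrank, hn] at horb
        refine ⟨horb, ?_⟩
        have : Finite (𝓞 K ⧸ v.asIdeal) := Ideal.finiteQuotientOfFreeOfNeBot _ v.ne_bot
        have : Finite v.asIdeal.ResidueField := Finite.of_surjective _
          v.asIdeal.bijective_algebraMap_quotient_residueField.surjective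
        have h := Ideal.ncard_primesOver_mul_card_inertia_mul_finrank (G := L ≃ₐ[K] L) v.asIdeal W
        rw [hunr W hW0 hW.1, Subgroup.card_bot, mul_one, IsGalois.card_aut_eq_finrank, hn,
          horb] at h
        have hf : W.inertiaDeg (𝓞 K) = 1 :=
          Nat.eq_of_mul_eq_mul_left hnpos (h.trans (mul_one n).symm)
        rw [← Ideal.absNorm_relNorm (𝓞 K) (𝓞 L) W, Ideal.relNorm_eq_pow_of_isMaximal W v.asIdeal,
          hf, pow_one, hvℓ]
      obtain ⟨W₀, hW₀, hW₀'⟩ :=
        Ideal.exists_maximal_ideal_liesOver_of_isIntegral (S := 𝓞 L) v.asIdeal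
      exact ⟨(key W₀ ⟨hW₀.isPrime, hW₀'⟩).1, fun W hW => (key W hW).2⟩
    rw [mul_comm, ← hm, ← hfull.1]
    refine Set.ncard_le_ncard (fun W hW => ⟨hfull.2 W hW, hW.2.over.symm⟩) ?_
    exact (Ideal.finite_setOfPred_absNorm_eq (S := 𝓞 L) ℓ).subset fun W hW => hW.1
  rw [if_pos hH1]
  omega

end Fermat.Agent.TwoAdic.Unramified

end
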